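import Mathlib

/-!
# Arithmetic in the cubic field of discriminant `-44`

`K = ℚ(φ)` with `φ³ - 2φ² + 2 = 0` has ring of integers `ℤ[φ]`, discriminant `-44`, hence
(Minkowski) class number one, and unit group `±ε^ℤ` in which `1 - φ` is an odd power.
Consequently an element `β = p₀ + p₁φ + p₂φ²` with `p₀` odd, `p₁` even, whose norm is a square
up to sign and which generates with `√|Nβ|` an ideal with cyclic quotient, is `±` a square.
This is what the descent on `y² + y = x³ - x²` needs; the exported statements are in integers.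
-/

namespace Fermat.Agent.Descent11

open Polynomial Module
open scoped NumberField

/-- `T³ - 2T² + 2`. -/
noncomputable def cubic : ℚ[X] := X ^ 3 - C 2 * X ^ 2 + C 2

theorem cubic_monic : cubic.Monic := by unfold cubic; monicity!

theorem cubic_natDegree : cubic.natDegree = 3 := by unfold cubic; compute_degree!

theorem cubic_irreducible : Irreducible cubic := by
  rw [cubic_monic.irreducible_iff_roots_eq_zero_of_degree_le_three (by rw [cubic_natDegree]; norm_num)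
    (by rw [cubic_natDegree])]
  refine Multiset.eq_zero_of_forall_notMem fun r hr ↦ ?_
  have hroot : r ^ 3 - 2 * r ^ 2 + 2 = 0 := by
    have := (mem_roots'.mp hr).2
    simpa [cubic] using this
  set p := r.num with hp
  set q : ℤ := (r.den : ℤ) with hq
  have hr' : r = p / q := by simp [hp, hq, Rat.num_div_den]
  have hq0 : (q : ℚ) ≠ 0 := by simp [hq]
  have key : p ^ 3 = q * (2 * p ^ 2 - 2 * q ^ 2) := by
    rw [hr'] at hroot
    field_simp at hroot
    qify
    linear_combination hroot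
  have hcp : IsCoprime q p :=
    (Int.isCoprime_iff_gcd_eq_one.mpr (by rw [hp, hq]; exact r.reduced)).symm
  have hq1 : q = 1 := by
    have : IsUnit q := (hcp.pow_right (n := 3)).isUnit_of_dvd' dvd_rfl ⟨_, key⟩
    rcases Int.isUnit_iff.mp this with h | h
    · exact h
    · omega
  rw [hq1] at key
  have h1 : p ∣ 2 := ⟨2 * p - p ^ 2, by linear_combination key⟩
  have h2 : |p| ≤ 2 := Int.le_of_dvd (by norm_num) ((abs_dvd p 2).mpr h1)
  obtain ⟨hlo, hhi⟩ := abs_le.mp h2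
  interval_cases p <;> norm_num at key

instance : Fact (Irreducible cubic) := ⟨cubic_irreducible⟩

/-- The cubic field. -/
abbrev K := AdjoinRoot cubic

/-- The root `φ`. -/
noncomputable def φ : K := AdjoinRoot.root cubic

theorem φ_cube : φ ^ 3 = 2 * φ ^ 2 - 2 := by
  have h : aeval φ cubic = 0 := (AdjoinRoot.aeval_eq cubic).trans AdjoinRoot.mk_self
  simp only [cubic, map_add, map_sub, map_mul, map_pow, aeval_X, map_ofNat] at h
  linear_combination h

theorem φ_four : φ ^ 4 = 4 * φ ^ 2 - 2 * φ - 4 := by linear_combination (φ + 2) * φ_cube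

/-- The basis `1, φ, φ²`. -/
noncomputable def bas : Basis (Fin 3) ℚ K :=
  (AdjoinRoot.powerBasis cubic_irreducible.ne_zero).basis.reindex
    (finCongr (by rw [AdjoinRoot.powerBasis_dim]; exact cubic_natDegree))

theorem bas_apply (i : Fin 3) : bas i = φ ^ (i : ℕ) := by
  simp [bas, φ, AdjoinRoot.powerBasis_gen]

instance : FiniteDimensional ℚ K := Module.Basis.finiteDimensional_of_finite bas

instance : NumberField K where

theorem finrank_K : finrank ℚ K = 3 := by rw [finrank_eq_card_basis bas]; rfl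

/-- `a + bφ + cφ²`. -/
noncomputable def el (a b c : ℚ) : K :=
  algebraMap ℚ K a + algebraMap ℚ K b * φ + algebraMap ℚ K c * φ ^ 2

theorem el_eq_sum (a b c : ℚ) : el a b c = ∑ i, (![a, b, c] i) • bas i := by
  simp [el, Fin.sum_univ_three, bas_apply, Algebra.smul_def]

theorem repr_el (a b c : ℚ) : ⇑(bas.repr (el a b c)) = ![a, b, c] := by
  rw [el_eq_sum, bas.repr_sum_self]

theorem el_inj {a b c a' b' c' : ℚ} (h : el a b c = el a' b' c') :
    a = a' ∧ b = b' ∧ c = c' := by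
  have := congrArg (fun z ↦ ⇑(bas.repr z)) h
  simp only [repr_el] at this
  exact ⟨by simpa using congrFun this 0, by simpa using congrFun this 1,
    by simpa using congrFun this 2⟩

theorem exists_el (x : K) : ∃ a b c, x = el a b c := by
  refine ⟨bas.repr x 0, bas.repr x 1, bas.repr x 2, ?_⟩
  rw [el_eq_sum]
  conv_lhs => rw [← bas.sum_repr x]
  simp only [Fin.sum_univ_three, Matrix.cons_val_zero, Matrix.cons_val_one]
  rfl

theorem el_mul (a b c a' b' c' : ℚ) : el a b c * el a' b' c' =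
    el (a * a' - 2 * (b * c' + c * b') - 4 * (c * c'))
      (a * b' + b * a' - 2 * (c * c'))
      (a * c' + b * b' + c * a' + 2 * (b * c' + c * b') + 4 * (c * c')) := by
  simp only [el, map_add, map_sub, map_mul, map_ofNat]
  linear_combination (algebraMap ℚ K b * algebraMap ℚ K c' + algebraMap ℚ K c * algebraMap ℚ K b') *
    φ_cube + algebraMap ℚ K c * algebraMap ℚ K c' * φ_four

theorem el_smul (t a b c : ℚ) : t • el a b c = el (t * a) (t * b) (t * c) := by
  simp [el, Algebra.smul_def, mul_add, mul_assoc]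

theorem el_add (a b c a' b' c' : ℚ) :
    el a b c + el a' b' c' = el (a + a') (b + b') (c + c') := by
  simp [el]; ring

theorem bas_eq_el : bas 0 = el 1 0 0 ∧ bas 1 = el 0 1 0 ∧ bas 2 = el 0 0 1 := by
  simp [bas_apply, el]

theorem leftMulMatrix_el (a b c : ℚ) : Algebra.leftMulMatrix bas (el a b c) =
    !![a, -2 * c, -2 * (b + 2 * c);
       b, a, -2 * c;
       c, b + 2 * c, a + 2 * (b + 2 * c)] := by
  set M : Matrix (Fin 3) (Fin 3) ℚ := !![a, -2 * c, -2 * (b + 2 * c);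
       b, a, -2 * c;
       c, b + 2 * c, a + 2 * (b + 2 * c)] with hM
  obtain ⟨e0, e1, e2⟩ := bas_eq_el
  have h : ∀ j, el a b c * bas j = el (M 0 j) (M 1 j) (M 2 j) := fun j ↦ by
    match j with
    | 0 => rw [e0, el_mul, hM]; congr 1 <;> simp
    | 1 => rw [e1, el_mul, hM]; congr 1 <;> simp
    | 2 => rw [e2, el_mul, hM]; congr 1 <;> simp <;> ring
  ext i j
  rw [Algebra.leftMulMatrix_eq_repr_mul, h, repr_el]
  match i with
  | 0 => rfl
  | 1 => rfl
  | 2 => rfl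

theorem trace_el (a b c : ℚ) : Algebra.trace ℚ K (el a b c) = 3 * a + 2 * b + 4 * c := by
  rw [Algebra.trace_eq_matrix_trace bas, leftMulMatrix_el]
  simp [Matrix.trace_fin_three]; ring

/-- The norm form of `ℤ[φ]`. -/
def nm {R : Type} [CommRing R] (a b c : R) : R :=
  a * (a * (a + 2 * (b + 2 * c)) + 2 * c * (b + 2 * c))
    + 2 * c * (b * (a + 2 * (b + 2 * c)) + 2 * c * c)
    - 2 * (b + 2 * c) * (b * (b + 2 * c) - a * c)

theorem norm_el (a b c : ℚ) : Algebra.norm ℚ (el a b c) = nm a b c := by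
  rw [Algebra.norm_eq_matrix_det bas, leftMulMatrix_el, Matrix.det_fin_three, nm]
  simp; ring

theorem discr_bas : Algebra.discr ℚ bas = -44 := by
  rw [Algebra.discr_def, Matrix.det_fin_three]
  obtain ⟨e0, e1, e2⟩ := bas_eq_el
  simp only [Algebra.traceMatrix_apply, Algebra.traceForm_apply, e0, e1, e2, el_mul, trace_el]
  norm_num

/-! ### The ring of integers is `ℤ[φ]` -/

theorem isIntegral_φ : IsIntegral ℤ φ := by
  refine ⟨X ^ 3 - C 2 * X ^ 2 + C 2, by monicity!, ?_⟩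
  rw [← aeval_def]
  simp only [map_add, map_sub, map_mul, map_pow, aeval_X, map_ofNat]
  linear_combination φ_cube

theorem el_intCast (a b c : ℤ) :
    el a b c = (a : K) + (b : K) * φ + (c : K) * φ ^ 2 := by
  simp [el]

theorem isIntegral_el (a b c : ℤ) : IsIntegral ℤ (el a b c) := by
  rw [el_intCast]
  have := isIntegral_φ
  refine ((?_ : IsIntegral ℤ _).add ?_).add ?_
  · exact isIntegral_algebraMap (R := ℤ) (A := K) (x := a)
  · exact (isIntegral_algebraMap (R := ℤ) (A := K) (x := b)).mul this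
  · exact (isIntegral_algebraMap (R := ℤ) (A := K) (x := c)).mul (this.pow 2)

theorem exists_int_trace {x : K} (hx : IsIntegral ℤ x) :
    ∃ t : ℤ, Algebra.trace ℚ K x = t := by
  obtain ⟨t, ht⟩ := IsIntegrallyClosed.isIntegral_iff.mp
    (Algebra.isIntegral_trace hx : IsIntegral ℤ (Algebra.trace ℚ K x))
  exact ⟨t, by simpa using ht.symm⟩

theorem exists_int_norm {x : K} (hx : IsIntegral ℤ x) :
    ∃ t : ℤ, Algebra.norm ℚ x = t := by
  obtain ⟨t, ht⟩ := IsIntegrallyClosed.isIntegral_iff.mp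
    (Algebra.isIntegral_norm ℚ hx : IsIntegral ℤ (Algebra.norm ℚ x))
  exact ⟨t, by simpa using ht.symm⟩

theorem isIntegral_congr {x y : K} (h : IsIntegral ℤ y) (e : x = y) : IsIntegral ℤ x := e ▸ h

/-- The index of `ℤ[φ]` is prime to `2`. -/
theorem index_two {a b c : ℤ} (h : IsIntegral ℤ (el (a / 2) (b / 2) (c / 2))) :
    2 ∣ a ∧ 2 ∣ b ∧ 2 ∣ c := by
  have h' : IsIntegral ℤ (el ((a % 2 : ℤ) / 2) ((b % 2 : ℤ) / 2) ((c % 2 : ℤ) / 2)) := by
    refine isIntegral_congr (h.add (isIntegral_el (-(a / 2)) (-(b / 2)) (-(c / 2)))) ?_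
    rw [el_add]
    congr 1 <;> rw [Int.emod_def] <;> push_cast <;> ring
  obtain ⟨t, ht⟩ := exists_int_norm h'
  have h8 : nm (a % 2) (b % 2) (c % 2) = 8 * t := by
    rw [norm_el] at ht
    unfold nm at ht ⊢
    qify
    linear_combination 8 * ht
  have ha := Int.emod_two_eq a
  have hb := Int.emod_two_eq b
  have hc := Int.emod_two_eq c
  rcases ha with ha | ha <;> rcases hb with hb | hb <;> rcases hc with hc | hc <;>
    rw [ha, hb, hc] at h8 <;> simp [nm] at h8 <;> omega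

/-- The index of `ℤ[φ]` is prime to `11`. -/
theorem index_eleven {a b c : ℤ} (h : IsIntegral ℤ (el (a / 11) (b / 11) (c / 11))) :
    11 ∣ a ∧ 11 ∣ b ∧ 11 ∣ c := by
  obtain ⟨t₀, ht₀⟩ := exists_int_trace h
  obtain ⟨t₁, ht₁⟩ := exists_int_trace (h.mul (isIntegral_el 0 1 0))
  rw [trace_el] at ht₀
  rw [el_mul, trace_el] at ht₁
  have k₀ : 3 * a + 2 * b + 4 * c = 11 * t₀ := by
    qify; linear_combination 11 * ht₀
  have k₁ : 2 * a + 4 * b + 2 * c = 11 * t₁ := by
    qify; push_cast at ht₁; linear_combination 11 * ht₁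
  have h' : IsIntegral ℤ
      (el ((a % 11 : ℤ) / 11) (((-2 * a) % 11 : ℤ) / 11) (((3 * a) % 11 : ℤ) / 11)) := by
    obtain ⟨u, hu⟩ : (11 : ℤ) ∣ b + 2 * a := by omega
    obtain ⟨v, hv⟩ : (11 : ℤ) ∣ c - 3 * a := by omega
    refine isIntegral_congr (h.add (isIntegral_el (-(a / 11)) (-u - (-2 * a) / 11) (-v - (3 * a) / 11))) ?_
    have hu' : (b : ℚ) + 2 * a = 11 * u := by exact_mod_cast hu
    have hv' : (c : ℚ) - 3 * a = 11 * v := by exact_mod_cast hv
    rw [el_add]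
    congr 1 <;> rw [Int.emod_def] <;> push_cast
    · ring
    · linear_combination -hu' / 11
    · linear_combination -hv' / 11
  obtain ⟨t, ht⟩ := exists_int_norm h'
  have h1331 : nm (a % 11) ((-2 * a) % 11) ((3 * a) % 11) = 1331 * t := by
    rw [norm_el] at ht
    unfold nm at ht ⊢
    qify
    linear_combination 1331 * ht
  have ha : (11 : ℤ) ∣ a := by
    have hlo := Int.emod_nonneg a (by norm_num : (11 : ℤ) ≠ 0)
    have hhi := Int.emod_lt_of_pos a (by norm_num : (0 : ℤ) < 11)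
    obtain ⟨r, hr⟩ : ∃ r, a % 11 = r := ⟨_, rfl⟩
    rw [hr] at hlo hhi
    have e1 : (-2 * a) % 11 = (-2 * r) % 11 := by omega
    have e2 : (3 * a) % 11 = (3 * r) % 11 := by omega
    rw [hr, e1, e2] at h1331
    interval_cases r <;> simp [nm] at h1331 <;> omega
  exact ⟨ha, by omega, by omega⟩

/-- `ℤ[φ]` is the maximal order. -/
theorem exists_int_el {x : K} (hx : IsIntegral ℤ x) : ∃ a b c : ℤ, x = el a b c := by
  obtain ⟨a, b, c, rfl⟩ := exists_el x
  obtain ⟨t₀, ht₀⟩ := exists_int_trace hx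
  obtain ⟨t₁, ht₁⟩ := exists_int_trace (hx.mul (isIntegral_el 0 1 0))
  obtain ⟨t₂, ht₂⟩ := exists_int_trace (hx.mul (isIntegral_el 0 0 1))
  rw [trace_el] at ht₀
  rw [el_mul, trace_el] at ht₁ ht₂
  push_cast at ht₁ ht₂
  -- multiply the trace vector by the adjugate of the trace matrix
  obtain ⟨A, B, C, hA, hB, hC⟩ : ∃ A B C : ℤ, 44 * a = A ∧ 44 * b = B ∧ 44 * c = C :=
    ⟨4 * t₀ - 8 * t₁ + 12 * t₂, -8 * t₀ + 16 * t₁ - 2 * t₂, 12 * t₀ - 2 * t₁ - 8 * t₂,
      by push_cast; linear_combination 4 * ht₀ - 8 * ht₁ + 12 * ht₂,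
      by push_cast; linear_combination -8 * ht₀ + 16 * ht₁ - 2 * ht₂,
      by push_cast; linear_combination 12 * ht₀ - 2 * ht₁ - 8 * ht₂⟩
  have hx' : el a b c = el (A / 44) (B / 44) (C / 44) := by
    rw [← hA, ← hB, ← hC]; congr 1 <;> ring
  rw [hx'] at hx ⊢
  have h22 : IsIntegral ℤ (el (A / 11) (B / 11) (C / 11)) := by
    refine isIntegral_congr (hx.mul (isIntegral_el 4 0 0)) ?_
    rw [el_mul]; congr 1 <;> push_cast <;> ring
  obtain ⟨⟨A, rfl⟩, ⟨B, rfl⟩, ⟨C, rfl⟩⟩ := index_eleven h22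
  have h4 : IsIntegral ℤ (el (A / 2) (B / 2) (C / 2)) := by
    refine isIntegral_congr (hx.mul (isIntegral_el 2 0 0)) ?_
    rw [el_mul]; congr 1 <;> push_cast <;> ring
  obtain ⟨⟨A, rfl⟩, ⟨B, rfl⟩, ⟨C, rfl⟩⟩ := index_two h4
  have h2 : IsIntegral ℤ (el (A / 2) (B / 2) (C / 2)) := by
    refine isIntegral_congr (hx) ?_
    congr 1 <;> push_cast <;> ring
  obtain ⟨⟨A, rfl⟩, ⟨B, rfl⟩, ⟨C, rfl⟩⟩ := index_two h2
  exact ⟨A, B, C, by congr 1 <;> push_cast <;> ring⟩

/-! ### Discriminant, class number, units -/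

/-- `a + bφ + cφ²` as an algebraic integer. -/
noncomputable def elO (a b c : ℤ) : 𝓞 K := ⟨el a b c, isIntegral_el a b c⟩

theorem coe_elO (a b c : ℤ) : ((elO a b c : 𝓞 K) : K) = el a b c := rfl

theorem exists_elO (x : 𝓞 K) : ∃ a b c, x = elO a b c := by
  obtain ⟨a, b, c, h⟩ := exists_int_el x.2
  exact ⟨a, b, c, NumberField.RingOfIntegers.ext h⟩

theorem elO_inj {a b c a' b' c' : ℤ} (h : elO a b c = elO a' b' c') :
    a = a' ∧ b = b' ∧ c = c' := by
  obtain ⟨h0, h1, h2⟩ := el_inj (congrArg (fun z : 𝓞 K ↦ (z : K)) h)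
  exact ⟨by exact_mod_cast h0, by exact_mod_cast h1, by exact_mod_cast h2⟩

theorem elO_mul (a b c a' b' c' : ℤ) : elO a b c * elO a' b' c' =
    elO (a * a' - 2 * (b * c' + c * b') - 4 * (c * c'))
      (a * b' + b * a' - 2 * (c * c'))
      (a * c' + b * b' + c * a' + 2 * (b * c' + c * b') + 4 * (c * c')) := by
  apply NumberField.RingOfIntegers.ext
  show el a b c * el a' b' c' = el _ _ _
  rw [el_mul]
  push_cast; rfl

theorem elO_intCast (n : ℤ) : elO n 0 0 = (n : 𝓞 K) := by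
  apply NumberField.RingOfIntegers.ext
  simp [coe_elO, el]

theorem elO_neg (a b c : ℤ) : -elO a b c = elO (-a) (-b) (-c) := by
  apply NumberField.RingOfIntegers.ext
  show -el a b c = el _ _ _
  simp [el]; ring

theorem elO_add (a b c a' b' c' : ℤ) :
    elO a b c + elO a' b' c' = elO (a + a') (b + b') (c + c') := by
  apply NumberField.RingOfIntegers.ext
  show el a b c + el a' b' c' = el _ _ _
  rw [el_add]; push_cast; rfl

theorem norm_elO (a b c : ℤ) : Algebra.norm ℤ (elO a b c) = nm a b c := by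
  have := Algebra.coe_norm_int (elO a b c)
  rw [coe_elO, norm_el] at this
  simp only [nm] at this ⊢
  exact_mod_cast this

/-- Coordinates with respect to `1, φ, φ²`. -/
noncomputable def linEquivO : (Fin 3 → ℤ) ≃ₗ[ℤ] 𝓞 K :=
  LinearEquiv.ofBijective
    (AddMonoidHom.toIntLinearMap (AddMonoidHom.mk' (fun v : Fin 3 → ℤ ↦ elO (v 0) (v 1) (v 2))
      fun v w ↦ (elO_add _ _ _ _ _ _).symm))
    ⟨fun v w h ↦ by
      obtain ⟨h0, h1, h2⟩ := elO_inj h
      ext i; fin_cases i <;> assumption,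
    fun x ↦ by
      obtain ⟨a, b, c, rfl⟩ := exists_elO x
      exact ⟨![a, b, c], rfl⟩⟩

/-- The power basis over `ℤ`. -/
noncomputable def basO : Module.Basis (Fin 3) ℤ (𝓞 K) :=
  Module.Basis.ofEquivFun linEquivO.symm

theorem coe_basO (i : Fin 3) : ((basO i : 𝓞 K) : K) = bas i := by
  have h : basO i = linEquivO (Pi.single i 1) := by
    simp [basO, Module.Basis.coe_ofEquivFun]
  obtain ⟨e0, e1, e2⟩ := bas_eq_el
  rw [h]
  show el _ _ _ = _
  match i with
  | 0 => simp [e0]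
  | 1 => simp [e1]
  | 2 => simp [e2]

theorem discr_K : NumberField.discr K = -44 := by
  have h : basO.localizationLocalization ℚ (nonZeroDivisors ℤ) K = bas := by
    ext i
    rw [Basis.localizationLocalization_apply]
    exact coe_basO i
  have h2 := Algebra.discr_localizationLocalization ℤ (nonZeroDivisors ℤ) K basO (Rₘ := ℚ)
  rw [h, discr_bas, NumberField.discr_eq_discr K basO] at h2
  exact Int.cast_injective (α := ℚ) (by simpa using h2.symm)

theorem nrComplexPlaces_K : NumberField.InfinitePlace.nrComplexPlaces K = 1 := by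
  have h := NumberField.sign_discr K
  have h3 := NumberField.InfinitePlace.card_add_two_mul_card_eq_rank K
  rw [discr_K] at h
  rw [finrank_K] at h3
  have : NumberField.InfinitePlace.nrComplexPlaces K ≤ 1 := by omega
  rcases Nat.le_one_iff_eq_zero_or_eq_one.mp this with h0 | h0
  · rw [h0] at h; exact absurd h (by decide)
  · exact h0

instance : IsPrincipalIdealRing (𝓞 K) := by
  refine RingOfIntegers.isPrincipalIdealRing_of_abs_discr_lt ?_
  rw [discr_K, finrank_K, nrComplexPlaces_K]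
  norm_num [Nat.factorial]
  nlinarith [Real.pi_gt_three]

theorem rank_K : NumberField.Units.rank K = 1 := by
  have h3 := NumberField.InfinitePlace.card_add_two_mul_card_eq_rank K
  rw [finrank_K, nrComplexPlaces_K] at h3
  have hc : Fintype.card (NumberField.InfinitePlace K) =
      NumberField.InfinitePlace.nrRealPlaces K + NumberField.InfinitePlace.nrComplexPlaces K :=
    NumberField.InfinitePlace.card_eq_nrRealPlaces_add_nrComplexPlaces K
  rw [nrComplexPlaces_K] at hc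
  rw [NumberField.Units.rank]; omega

/-- The unit `1 - φ`. -/
noncomputable def η : (𝓞 K)ˣ :=
  Units.mkOfMulEqOne (elO 1 (-1) 0) (elO (-1) (-1) 1) (by
    rw [elO_mul]; norm_num; exact_mod_cast elO_intCast 1)

theorem coe_η : (η : 𝓞 K) = elO 1 (-1) 0 := rfl

theorem elO_sq (a b c : ℤ) : elO a b c ^ 2 = elO (a ^ 2 - 4 * b * c - 4 * c ^ 2)
    (2 * (a * b - c ^ 2)) ((b + 2 * c) ^ 2 + 2 * a * c) := by
  rw [pow_two, elO_mul]; congr 1 <;> ring

/-- `±η` is not a square: its `φ`-coordinate is odd. -/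
theorem η_not_sq (w : (𝓞 K)ˣ) : η ≠ w ^ 2 ∧ η ≠ -w ^ 2 := by
  obtain ⟨a, b, c, h⟩ := exists_elO (w : 𝓞 K)
  constructor <;> intro he <;> replace he := congrArg (fun u : (𝓞 K)ˣ ↦ (u : 𝓞 K)) he <;>
    simp only [coe_η, Units.val_pow_eq_pow_val, Units.val_neg, h, elO_sq, elO_neg] at he <;>
    obtain ⟨-, h1, -⟩ := elO_inj he <;> omega

theorem unit_classes (u : (𝓞 K)ˣ) :
    ∃ w : (𝓞 K)ˣ, u = w ^ 2 ∨ u = -w ^ 2 ∨ u = η * w ^ 2 ∨ u = -(η * w ^ 2) := by
  obtain ⟨i₀⟩ : Nonempty (Fin (NumberField.Units.rank K)) := ⟨⟨0, by rw [rank_K]; exact one_pos⟩⟩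
  have hsub : Subsingleton (Fin (NumberField.Units.rank K)) := by rw [rank_K]; infer_instance
  obtain ⟨ε, hε⟩ : ∃ ε : (𝓞 K)ˣ, ∀ x : (𝓞 K)ˣ, ∃ n : ℤ, x = ε ^ n ∨ x = -ε ^ n := by
    refine ⟨NumberField.Units.fundSystem K i₀, fun x ↦ ?_⟩
    obtain ⟨⟨ζ, f⟩, hx, -⟩ := NumberField.Units.exist_unique_eq_mul_prod K x
    rw [Fintype.prod_subsingleton _ i₀] at hx
    refine ⟨f i₀, ?_⟩
    rcases NumberField.Units.torsion_eq_one_or_neg_one_of_odd_finrank
      (by rw [finrank_K]; exact ⟨1, rfl⟩) ζ with h | h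
    · exact Or.inl (by simpa [h] using hx)
    · exact Or.inr (by simpa [h] using hx)
  obtain ⟨i, hi⟩ := hε η
  obtain ⟨j, hj⟩ := hε u
  have hiodd : Odd i := by
    rcases Int.even_or_odd i with ⟨k, rfl⟩ | h
    · exfalso
      have hk : ε ^ (k + k) = (ε ^ k) ^ 2 := by rw [zpow_add, pow_two]
      rcases hi with hi | hi <;> rw [hk] at hi
      · exact (η_not_sq _).1 hi
      · exact (η_not_sq _).2 hi
    · exact h
  obtain ⟨k, rfl⟩ := hiodd
  rcases Int.even_or_odd j with ⟨l, rfl⟩ | ⟨l, rfl⟩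
  · have hl : ε ^ (l + l) = (ε ^ l) ^ 2 := by rw [zpow_add, pow_two]
    rw [hl] at hj
    exact ⟨ε ^ l, by rcases hj with hj | hj <;> simp [hj]⟩
  · have hl : ε ^ (2 * l + 1) = ε ^ (2 * k + 1) * (ε ^ (l - k)) ^ 2 := by
      rw [← zpow_natCast, ← zpow_mul, ← zpow_add]; congr 1; push_cast; ring
    rw [hl] at hj
    refine ⟨ε ^ (l - k), ?_⟩
    rcases hi with hi | hi <;> rcases hj with hj | hj <;> simp [hi, hj]

/-! ### Squares -/

/-- An element `β` of norm `±Y²` such that `φ` is congruent to an integer modulo `(β, Y)` is a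
unit times a square. -/
theorem associated_sq {β β' : 𝓞 K} {Y A D : ℤ} (hY : Y ≠ 0)
    (hnorm : (Algebra.norm ℤ β).natAbs = (Y ^ 2).natAbs) (hmul : β * β' = (Y : 𝓞 K) ^ 2)
    (hD : IsCoprime D Y)
    (hcong : ∀ γ : 𝓞 K, γ ∣ β → γ ∣ (D : 𝓞 K) * elO 0 1 0 - (A : 𝓞 K)) :
    ∃ (u : (𝓞 K)ˣ) (γ : 𝓞 K), β = u * γ ^ 2 := by
  obtain ⟨γ, hγ⟩ := (IsPrincipalIdealRing.principal (Ideal.span {β, (Y : 𝓞 K)})).principal
  change Ideal.span {β, (Y : 𝓞 K)} = Ideal.span {γ} at hγ
  have hγβ : γ ∣ β := Ideal.mem_span_singleton.mp (hγ ▸ Ideal.subset_span (by simp))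
  have hγY : γ ∣ (Y : 𝓞 K) := Ideal.mem_span_singleton.mp (hγ ▸ Ideal.subset_span (by simp))
  have hβγ : β ∣ γ ^ 2 := by
    obtain ⟨s, t, hst⟩ := Ideal.mem_span_pair.mp (hγ ▸ Ideal.mem_span_singleton_self γ)
    exact ⟨s * s * β + 2 * s * t * (Y : 𝓞 K) + t * t * β', by
      rw [← hst]; linear_combination (-t * t) * hmul⟩
  have hYpos : 0 < Y.natAbs := Int.natAbs_pos.mpr hY
  -- the quotient by `γ` is cyclic
  have hle : (Algebra.norm ℤ γ).natAbs ≤ Y.natAbs := by
    obtain ⟨u, v, huv⟩ := hD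
    set I := Ideal.span ({γ} : Set (𝓞 K))
    have hmk : ∀ z, γ ∣ z → Ideal.Quotient.mk I z = 0 := fun z hz ↦
      Ideal.Quotient.eq_zero_iff_mem.mpr (Ideal.mem_span_singleton.mpr hz)
    have hY0 : ((Y : ℤ) : 𝓞 K ⧸ I) = 0 := by simpa using hmk _ hγY
    have hroot : Ideal.Quotient.mk I (elO 0 1 0) = ((u * A : ℤ) : 𝓞 K ⧸ I) := by
      have h0 := hmk _ (hcong γ hγβ)
      simp only [map_sub, map_mul, map_intCast] at h0
      have h1 : ((u * D + v * Y : ℤ) : 𝓞 K ⧸ I) = 1 := by rw [huv]; simp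
      push_cast at h1 ⊢
      rw [hY0, mul_zero, add_zero] at h1
      linear_combination (u : 𝓞 K ⧸ I) * h0 - Ideal.Quotient.mk I (elO 0 1 0) * h1
    set n := u * A
    have hsurj : Function.Surjective
        fun t : Fin Y.natAbs ↦ (((t : ℕ) : ℤ) : 𝓞 K ⧸ I) := by
      intro q
      obtain ⟨z, rfl⟩ := Ideal.Quotient.mk_surjective q
      obtain ⟨a, b, c, rfl⟩ := exists_elO z
      set N := a + b * n + c * n ^ 2
      refine ⟨⟨(N % Y).natAbs, by
        have h1 := Int.emod_nonneg N hY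
        have h2 := Int.emod_lt_abs N hY
        rw [Int.abs_eq_natAbs] at h2
        omega⟩, ?_⟩
      show ((((N % Y).natAbs : ℕ) : ℤ) : 𝓞 K ⧸ I) = _
      rw [Int.natAbs_of_nonneg (Int.emod_nonneg N hY), Int.emod_def, Int.cast_sub, Int.cast_mul,
        hY0, zero_mul, sub_zero]
      have hz : elO a b c = (a : 𝓞 K) + b * elO 0 1 0 + c * elO 0 1 0 ^ 2 := by
        apply NumberField.RingOfIntegers.ext
        simp [coe_elO, el]
      rw [hz]
      simp only [map_add, map_mul, map_pow, map_intCast, hroot, N]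
      push_cast; ring
    have := Nat.card_le_card_of_surjective _ hsurj
    rw [Nat.card_fin] at this
    refine le_trans (le_of_eq ?_) this
    rw [← Ideal.absNorm_span_singleton, Ideal.absNorm_apply, Submodule.cardQuot_apply]
  obtain ⟨w, hw⟩ := hβγ
  have hγ0 : γ ≠ 0 := by
    rintro rfl
    exact hY (by simpa using hγY)
  have hprod := congrArg (fun z ↦ (Algebra.norm ℤ z).natAbs) hw
  simp only [map_pow, map_mul, Int.natAbs_pow, Int.natAbs_mul, hnorm] at hprod
  have hw1 : (Algebra.norm ℤ w).natAbs = 1 := by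
    have hne : (Algebra.norm ℤ w).natAbs ≠ 0 := by
      intro h0
      rw [h0, mul_zero] at hprod
      have := pow_eq_zero_iff two_ne_zero |>.mp hprod
      exact hγ0 (Algebra.norm_eq_zero_iff.mp (Int.natAbs_eq_zero.mp this))
    have := Nat.pow_le_pow_left hle 2
    nlinarith [Nat.pos_of_ne_zero hne, pow_pos hYpos 2]
  have hwu : IsUnit w := by
    rw [← Ideal.span_singleton_eq_top, ← Ideal.absNorm_eq_one_iff, Ideal.absNorm_span_singleton]
    exact hw1
  obtain ⟨w, rfl⟩ := hwu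
  exact ⟨w⁻¹, γ, by rw [hw, mul_comm β (w : 𝓞 K), ← mul_assoc, Units.inv_mul, one_mul]⟩

/-- With an odd constant term and an even `φ`-coordinate, the unit is `±1`. -/
theorem sign_sq {p₀ p₁ p₂ : ℤ} (h₀ : Odd p₀) (h₁ : Even p₁)
    (h : ∃ (u : (𝓞 K)ˣ) (γ : 𝓞 K), elO p₀ p₁ p₂ = u * γ ^ 2) :
    ∃ a b c : ℤ, elO p₀ p₁ p₂ = elO a b c ^ 2 ∨ elO p₀ p₁ p₂ = -elO a b c ^ 2 := by
  obtain ⟨u, γ, hu⟩ := h
  obtain ⟨w, hw⟩ := unit_classes u
  obtain ⟨a, b, c, habc⟩ := exists_elO ((w : 𝓞 K) * γ)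
  have hsq : (w : 𝓞 K) ^ 2 * γ ^ 2 = elO a b c ^ 2 := by rw [← habc]; ring
  rcases hw with rfl | rfl | rfl | rfl <;>
    simp only [Units.val_neg, Units.val_mul, Units.val_pow_eq_pow_val, neg_mul, mul_assoc, hsq]
      at hu
  · exact ⟨a, b, c, Or.inl hu⟩
  · exact ⟨a, b, c, Or.inr hu⟩
  all_goals
    exfalso
    simp only [coe_η, elO_sq, elO_mul, elO_neg] at hu
    obtain ⟨k₀, k₁, -⟩ := elO_inj hu
    obtain ⟨i, hi⟩ := h₀
    obtain ⟨j, hj⟩ := h₁
    obtain ⟨r, hr⟩ : ∃ r, a * b - c ^ 2 = r := ⟨_, rfl⟩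
    obtain ⟨s, hs⟩ : ∃ s, a ^ 2 - 4 * b * c - 4 * c ^ 2 = s := ⟨_, rfl⟩
    obtain ⟨t, ht⟩ : ∃ t, (b + 2 * c) ^ 2 + 2 * a * c = t := ⟨_, rfl⟩
    rw [hr, hs, ht] at k₀ k₁
    omega

theorem norm_sq_nonneg (x : 𝓞 K) : 0 ≤ Algebra.norm ℤ (x ^ 2) := by
  rw [map_pow]; exact sq_nonneg _

theorem nm_neg (a b c : ℤ) : nm (-a) (-b) (-c) = -nm a b c := by simp only [nm]; ring

/-- Even denominators: `m - 2k²φ` is a square in `ℤ[φ]`. -/
theorem square_of_even (m n k : ℤ) (hm : Odd m) (hmk : IsCoprime m k)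
    (h : n ^ 2 + 8 * n * k ^ 3 = m ^ 3 - 4 * m ^ 2 * k ^ 2) :
    ∃ a b c : ℤ, a ^ 2 - 4 * b * c - 4 * c ^ 2 = m ∧ a * b - c ^ 2 = -k ^ 2 ∧
      (b + 2 * c) ^ 2 + 2 * a * c = 0 := by
  obtain ⟨Y, hY⟩ : ∃ Y, n + 4 * k ^ 3 = Y := ⟨_, rfl⟩
  have hY2 : Y ^ 2 = m ^ 3 + k * (-4 * m ^ 2 * k + 16 * k ^ 5) := by
    rw [← hY]; linear_combination h
  have hnm : nm m (-2 * k ^ 2) 0 = Y ^ 2 := by rw [hY2]; simp only [nm]; ring
  have hYodd : Odd Y := by
    have h3 : Odd (Y ^ 2) := by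
      rw [show Y ^ 2 = m ^ 3 + 2 * (k * (-2 * m ^ 2 * k + 8 * k ^ 5)) by rw [hY2]; ring]
      exact (hm.pow).add_even (even_two_mul _)
    exact (Int.odd_pow.mp h3).resolve_right two_ne_zero
  have hY0 : Y ≠ 0 := fun h0 ↦ by simp [h0] at hYodd
  have hD : IsCoprime (2 * k ^ 2) Y := by
    refine (Int.isCoprime_two_left.mpr hYodd).mul_left ?_
    have hk : IsCoprime (Y ^ 2) k := by
      rw [hY2]; exact (hmk.pow_left).add_mul_left_left _
    exact ((IsCoprime.pow_left_iff (by norm_num : 0 < 2)).mp hk).symm.pow_left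
  obtain ⟨β', hβ'⟩ : ∃ β', elO m (-2 * k ^ 2) 0 * β' = (Y : 𝓞 K) ^ 2 := by
    refine ⟨elO (m ^ 2 - 4 * m * k ^ 2) (2 * k ^ 2 * m - 8 * k ^ 4) (4 * k ^ 4), ?_⟩
    rw [elO_mul, ← Int.cast_pow, ← elO_intCast, hY2]
    congr 1 <;> ring
  obtain ⟨a, b, c, hs⟩ := sign_sq hm ⟨-k ^ 2, by ring⟩
    (associated_sq (A := m) hY0 (by rw [norm_elO, hnm]) hβ' hD (fun γ hγ ↦ by
      convert hγ.neg_right using 1
      rw [← elO_intCast, ← elO_intCast, elO_mul, elO_neg, sub_eq_add_neg, elO_neg, elO_add]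
      congr 1 <;> ring))
  rcases hs with hs | hs
  · rw [elO_sq] at hs
    obtain ⟨h0, h1, h2⟩ := elO_inj hs
    exact ⟨a, b, c, h0.symm, by linarith, h2.symm⟩
  · exfalso
    have := congrArg (Algebra.norm ℤ) hs
    have hpos := norm_sq_nonneg (elO a b c)
    rw [elO_sq] at this hpos
    rw [elO_neg, norm_elO, norm_elO, nm_neg, hnm] at this
    rw [norm_elO] at hpos
    have : 0 < Y ^ 2 := by positivity
    omega

/-- Odd denominators: `-(-e² + 2mφ - mφ²)` is a square in `ℤ[φ]`. -/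
theorem square_of_odd (m n e : ℤ) (he : Odd e) (hme : IsCoprime m e)
    (h : n ^ 2 + n * e ^ 3 = m ^ 3 - m ^ 2 * e ^ 2) :
    ∃ a b c : ℤ, a ^ 2 - 4 * b * c - 4 * c ^ 2 = e ^ 2 ∧ a * b - c ^ 2 = -m ∧
      (b + 2 * c) ^ 2 + 2 * a * c = m := by
  obtain ⟨Y, hY⟩ : ∃ Y, 2 * n + e ^ 3 = Y := ⟨_, rfl⟩
  have hY2 : Y ^ 2 = 4 * m ^ 3 + e * (-4 * m ^ 2 * e + e ^ 5) := by
    rw [← hY]; linear_combination 4 * h
  have hnm : nm (-e ^ 2) (2 * m) (-m) = -Y ^ 2 := by rw [hY2]; simp only [nm]; ring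
  have hYodd : Odd Y := by rw [← hY]; exact (even_two_mul n).add_odd he.pow
  have hY0 : Y ≠ 0 := fun h0 ↦ by simp [h0] at hYodd
  have hD : IsCoprime (e ^ 2) Y := by
    have h4 : IsCoprime (4 : ℤ) e := by
      rw [show (4 : ℤ) = 2 ^ 2 by norm_num]
      exact (Int.isCoprime_two_left.mpr he).pow_left
    have hk : IsCoprime (Y ^ 2) e := by
      rw [hY2]; exact (h4.mul_left hme.pow_left).add_mul_left_left _
    exact ((IsCoprime.pow_left_iff (by norm_num : 0 < 2)).mp hk).symm.pow_left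
  obtain ⟨β', hβ'⟩ : ∃ β', elO (-e ^ 2) (2 * m) (-m) * β' = (Y : 𝓞 K) ^ 2 := by
    refine ⟨elO (-e ^ 4) (2 * m ^ 2 - 2 * m * e ^ 2) (m * e ^ 2), ?_⟩
    rw [elO_mul, ← Int.cast_pow, ← elO_intCast, hY2]
    congr 1 <;> ring
  obtain ⟨a, b, c, hs⟩ := sign_sq (he.pow.neg) (even_two_mul m)
    (associated_sq (A := 2 * m) hY0 (by rw [norm_elO, hnm, Int.natAbs_neg]) hβ' hD (fun γ hγ ↦ by
      convert (hγ.mul_right (elO 0 1 0)).neg_right using 1
      rw [← elO_intCast, ← elO_intCast, elO_mul, elO_mul, elO_neg, sub_eq_add_neg, elO_neg, elO_add]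
      congr 1 <;> ring))
  rcases hs with hs | hs
  · exfalso
    have := congrArg (Algebra.norm ℤ) hs
    have hpos := norm_sq_nonneg (elO a b c)
    rw [norm_elO, hnm] at this
    have : 0 < Y ^ 2 := by positivity
    omega
  · rw [elO_sq, elO_neg] at hs
    obtain ⟨h0, h1, h2⟩ := elO_inj hs
    exact ⟨a, b, c, by linarith, by linarith, by linarith⟩

end Fermat.Agent.Descent11
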