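import Fermat.Agent.Descent11.Field

/-!
# The rational points of `X₁(11) : y^2 + y = x^3 - x^2`

Every rational point is twice another one (`exists_halving`), and doubling multiplies the
height by four up to a bounded factor (`height_halving`), so that all rational points are tiny.
-/

namespace Fermat.Agent.Descent11

/-- `x` is the abscissa of a rational point on `y^2 + y = x^3 - x^2`. -/
def IsAbscissa (x : ℚ) : Prop := ∃ y : ℚ, y ^ 2 + y = x ^ 3 - x ^ 2

/-- An abscissa is `m/e^2` with an integral ordinate numerator over `e^3`. -/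
theorem exists_integral_coords {x : ℚ} (h : IsAbscissa x) :
    ∃ m n e : ℤ, 0 < e ∧ IsCoprime m e ∧ x.num = m ∧ (x.den : ℤ) = e ^ 2 ∧
      n ^ 2 + n * e ^ 3 = m ^ 3 - m ^ 2 * e ^ 2 := by
  obtain ⟨y, hy⟩ := h
  set p := x.num with hp
  set q : ℤ := (x.den : ℤ) with hq
  set u := y.num with hu
  set s : ℤ := (y.den : ℤ) with hs
  have hq0 : (q : ℚ) ≠ 0 := by simp [hq]
  have hs0 : (s : ℚ) ≠ 0 := by simp [hs]
  have hqpos : 0 < q := by simp [hq, x.den_pos]
  have hspos : 0 < s := by simp [hs, y.den_pos]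
  have hx : x = p / q := by simp [hp, hq, Rat.num_div_den]
  have hy' : y = u / s := by simp [hu, hs, Rat.num_div_den]
  have hcp : IsCoprime p q := Int.isCoprime_iff_gcd_eq_one.mpr x.reduced
  have hcu : IsCoprime u s := Int.isCoprime_iff_gcd_eq_one.mpr y.reduced
  have key : q ^ 3 * (u ^ 2 + u * s) = s ^ 2 * (p ^ 3 - p ^ 2 * q) := by
    rw [hx, hy'] at hy
    field_simp at hy
    qify
    linear_combination hy
  have h1 : IsCoprime (u ^ 2 + u * s) (s ^ 2) :=
    (hcu.pow_left (m := 2)).add_mul_right_left u |>.pow_right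
  have h2 : IsCoprime (q ^ 3) (p ^ 3 - p ^ 2 * q) := by
    have : IsCoprime (p ^ 3 + (-p ^ 2) * q) q := (hcp.pow_left (m := 3)).add_mul_right_left _
    rw [show p ^ 3 + (-p ^ 2) * q = p ^ 3 - p ^ 2 * q by ring] at this
    exact this.symm.pow_left
  have d1 : s ^ 2 ∣ q ^ 3 := h1.symm.dvd_of_dvd_mul_right ⟨p ^ 3 - p ^ 2 * q, key⟩
  have d2 : q ^ 3 ∣ s ^ 2 := h2.dvd_of_dvd_mul_right ⟨u ^ 2 + u * s, key.symm⟩
  have hsq : s ^ 2 = q ^ 3 := Int.dvd_antisymm (by positivity) (by positivity) d1 d2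
  have hdvd : q ∣ s := by
    rw [← Int.pow_dvd_pow_iff two_ne_zero]
    exact ⟨q, by rw [hsq]; ring⟩
  obtain ⟨e, he⟩ := hdvd
  have hqe : q = e ^ 2 := by
    apply mul_left_cancel₀ (pow_ne_zero 2 hqpos.ne')
    rw [he] at hsq
    linear_combination -hsq
  have hepos : 0 < e := by
    rw [he] at hspos
    exact pos_of_mul_pos_right hspos hqpos.le
  have hse : s = e ^ 3 := by rw [he, hqe]; ring
  refine ⟨p, u, e, hepos, ?_, rfl, hqe, ?_⟩
  · rw [hqe] at hcp
    exact (IsCoprime.pow_right_iff (by norm_num : 0 < 2)).mp hcp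
  · rw [hse, hqe] at key
    apply mul_left_cancel₀ (pow_ne_zero 6 hepos.ne')
    linear_combination key

/-- The three equations saying that `4x - 2φ` is the square of `a + bφ + cφ²` in `ℚ(φ)`. -/
theorem exists_sqrt {x : ℚ} (h : IsAbscissa x) :
    ∃ a b c : ℚ, a ^ 2 - 4 * b * c - 4 * c ^ 2 = 4 * x ∧ a * b - c ^ 2 = -1 ∧
      (b + 2 * c) ^ 2 + 2 * a * c = 0 := by
  obtain ⟨m, n, e, he, hme, hnum, hden, heq⟩ := exists_integral_coords h
  have hx : x = (m : ℚ) / (e : ℚ) ^ 2 := by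
    conv_lhs => rw [← Rat.num_div_den x]
    rw [hnum]
    congr 1
    exact_mod_cast hden
  have he0 : (e : ℚ) ≠ 0 := by exact_mod_cast he.ne'
  rcases Int.even_or_odd e with ⟨k, hk⟩ | hodd
  · replace hk : e = 2 * k := by omega
    subst hk
    have hm2 : IsCoprime m 2 := hme.of_mul_right_left
    have hmodd : Odd m := by
      rcases Int.even_or_odd m with hev | hodd
      · exact absurd (hm2.isUnit_of_dvd' hev.two_dvd dvd_rfl) (by decide)
      · exact hodd
    obtain ⟨a, b, c, h0, h1, h2⟩ :=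
      square_of_even m n k hmodd hme.of_mul_right_right (by linear_combination heq)
    have hk0 : (k : ℚ) ≠ 0 := by exact_mod_cast (by omega : k ≠ 0)
    have h0' : (a : ℚ) ^ 2 - 4 * b * c - 4 * c ^ 2 = m := by exact_mod_cast h0
    have h1' : (a : ℚ) * b - c ^ 2 = -(k : ℚ) ^ 2 := by exact_mod_cast h1
    have h2' : ((b : ℚ) + 2 * c) ^ 2 + 2 * a * c = 0 := by exact_mod_cast h2
    refine ⟨a / k, b / k, c / k, ?_, ?_, ?_⟩
    · rw [hx]; push_cast; field_simp; linear_combination 4 * h0'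
    · field_simp; linear_combination h1'
    · field_simp; linear_combination h2'
  · obtain ⟨a, b, c, h0, h1, h2⟩ := square_of_odd m n e hodd hme heq
    have h0' : (a : ℚ) ^ 2 - 4 * b * c - 4 * c ^ 2 = (e : ℚ) ^ 2 := by exact_mod_cast h0
    have h1' : (a : ℚ) * b - c ^ 2 = -(m : ℚ) := by exact_mod_cast h1
    have h2' : ((b : ℚ) + 2 * c) ^ 2 + 2 * a * c = m := by exact_mod_cast h2
    -- multiply by `2 - φ²`, whose square is `-2φ`
    refine ⟨(2 * a + 2 * b + 4 * c) / e, (2 * b + 2 * c) / e, -(a + 2 * b + 2 * c) / e, ?_, ?_, ?_⟩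
    · rw [hx]; field_simp; linear_combination 4 * h2'
    · field_simp; linear_combination -h0'
    · field_simp; linear_combination -4 * h1' - 4 * h2'

/-- Every rational point is the double of another one. -/
theorem exists_halving {x : ℚ} (h : IsAbscissa x) :
    ∃ r : ℚ, IsAbscissa r ∧
      x * (4 * r ^ 3 - 4 * r ^ 2 + 1) = r ^ 4 - 2 * r + 1 := by
  obtain ⟨a, b, c, h0, h1, h2⟩ := exists_sqrt h
  have hc : c ≠ 0 := by
    rintro rfl
    have : b = 0 := by
      have hb : b ^ 2 = 0 := by linear_combination h2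
      exact pow_eq_zero_iff two_ne_zero |>.mp hb
    subst this
    norm_num at h1
  obtain ⟨r, rfl⟩ : ∃ r : ℚ, b = c * (2 * r - 2) :=
    ⟨(b / c + 2) / 2, by field_simp; ring⟩
  obtain rfl : a = -2 * c * r ^ 2 := by
    apply mul_left_cancel₀ hc
    linear_combination h2 / 2
  have hg : c ^ 2 * (4 * r ^ 3 - 4 * r ^ 2 + 1) = 1 := by linear_combination -h1
  refine ⟨r, ⟨(1 / c - 1) / 2, ?_⟩, ?_⟩
  · field_simp
    linear_combination -hg
  · linear_combination -(4 * r ^ 3 - 4 * r ^ 2 + 1) / 4 * h0 + (r ^ 4 - 2 * r + 1) * hg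

/-- The height of a rational number. -/
def ht (x : ℚ) : ℕ := max x.num.natAbs x.den

/-- Doubling multiplies heights by at least the fourth power, up to the constant `139`. -/
theorem height_halving {x r : ℚ}
    (h : x * (4 * r ^ 3 - 4 * r ^ 2 + 1) = r ^ 4 - 2 * r + 1) :
    (ht r) ^ 4 ≤ 139 * ht x := by
  set p := r.num with hp
  set q : ℤ := (r.den : ℤ) with hq
  set N := x.num with hN
  set D : ℤ := (x.den : ℤ) with hD
  have hD0' : D ≠ 0 := by simp [hD]
  set A : ℤ := p ^ 4 - 2 * p * q ^ 3 + q ^ 4 with hA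
  set B : ℤ := q * (4 * p ^ 3 - 4 * p ^ 2 * q + q ^ 3) with hB
  have hrel : N * B = D * A := by
    have hq0 : (q : ℚ) ≠ 0 := by simp [hq]
    have hD0 : (D : ℚ) ≠ 0 := by simp [hD]
    have hx : x = N / D := by simp [hN, hD, Rat.num_div_den]
    have hr : r = p / q := by simp [hp, hq, Rat.num_div_den]
    rw [hx, hr] at h
    field_simp at h
    qify [hA, hB]
    linear_combination h
  have hcx : IsCoprime N D := Int.isCoprime_iff_gcd_eq_one.mpr x.reduced
  have hcr : IsCoprime p q := Int.isCoprime_iff_gcd_eq_one.mpr r.reduced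
  obtain ⟨g, hBg⟩ : D ∣ B := hcx.symm.dvd_of_dvd_mul_left ⟨A, hrel⟩
  have hAg : A = N * g := by
    apply mul_left_cancel₀ hD0'
    rw [← hrel, hBg]; ring
  -- two Bézout identities (the resultant of numerator and denominator is a power of `11`)
  set U₁ : ℤ := 11 * p ^ 3 - 20 * p ^ 2 * q + 4 * p * q ^ 2 + 6 * q ^ 3 with hU₁
  set V₁ : ℤ := 5 * p ^ 3 + 4 * p ^ 2 * q + 8 * p * q ^ 2 - 6 * q ^ 3 with hV₁
  set U₂ : ℤ := 48 * p ^ 2 * q - 32 * p * q ^ 2 - 16 * q ^ 3 with hU₂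
  set V₂ : ℤ := -12 * p ^ 3 - 4 * p ^ 2 * q + 27 * q ^ 3 with hV₂
  have h1 : g * (U₁ * N + V₁ * D) = 11 * p ^ 7 := by
    have : U₁ * A + V₁ * B = 11 * p ^ 7 := by rw [hU₁, hV₁, hA, hB]; ring
    rw [hAg, hBg] at this
    linear_combination this
  have h2 : g * (U₂ * N + V₂ * D) = 11 * q ^ 7 := by
    have : U₂ * A + V₂ * B = 11 * q ^ 7 := by rw [hU₂, hV₂, hA, hB]; ring
    rw [hAg, hBg] at this
    linear_combination this
  have hg : |g| ≤ 11 := by
    have hco : IsCoprime (p ^ 7) (q ^ 7) := hcr.pow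
    obtain ⟨u, v, huv⟩ := hco
    have : g ∣ 11 := ⟨u * (U₁ * N + V₁ * D) + v * (U₂ * N + V₂ * D), by
      linear_combination -u * h1 - v * h2 - 11 * huv⟩
    exact Int.le_of_dvd (by norm_num) ((abs_dvd g 11).mpr this)
  set M : ℤ := max |p| |q| with hM
  set H : ℤ := max |N| |D| with hH
  have hp' : |p| ≤ M := le_max_left _ _
  have hq' : |q| ≤ M := le_max_right _ _
  have hM0 : 0 < M := lt_of_lt_of_le (abs_pos.mpr (by simp [hq])) hq'
  have hH0 : 0 ≤ H := le_trans (abs_nonneg _) (le_max_left |N| |D|)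
  have hmon : ∀ i j : ℕ, i + j = 3 → |p ^ i * q ^ j| ≤ M ^ 3 := by
    intro i j hij
    rw [abs_mul, abs_pow, abs_pow, ← hij, pow_add]
    gcongr
  have e0 := abs_le.mp (hmon 0 3 rfl)
  have e1 := abs_le.mp (hmon 1 2 rfl)
  have e2 := abs_le.mp (hmon 2 1 rfl)
  have e3 := abs_le.mp (hmon 3 0 rfl)
  simp only [pow_zero, pow_one, one_mul, mul_one] at e0 e1 e2 e3
  have b1 : |U₁| ≤ 41 * M ^ 3 := abs_le.mpr ⟨by linarith, by linarith⟩
  have b2 : |V₁| ≤ 23 * M ^ 3 := abs_le.mpr ⟨by linarith, by linarith⟩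
  have b3 : |U₂| ≤ 96 * M ^ 3 := abs_le.mpr ⟨by linarith, by linarith⟩
  have b4 : |V₂| ≤ 43 * M ^ 3 := abs_le.mpr ⟨by linarith, by linarith⟩
  have hbd : ∀ (U V t : ℤ) (u v : ℤ), |U| ≤ u * M ^ 3 → |V| ≤ v * M ^ 3 → u + v ≤ 139 →
      g * (U * N + V * D) = 11 * t ^ 7 → |t| = M → M ^ 4 ≤ 139 * H := by
    intro U V t u v hu hv huv ht htM
    have h3 : |U * N + V * D| ≤ 139 * M ^ 3 * H := by
      calc |U * N + V * D| ≤ |U| * |N| + |V| * |D| := by
            rw [← abs_mul, ← abs_mul]; exact abs_add_le _ _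
        _ ≤ u * M ^ 3 * H + v * M ^ 3 * H := by
            have h0 : (0 : ℤ) ≤ u * M ^ 3 := (abs_nonneg U).trans hu
            have h0' : (0 : ℤ) ≤ v * M ^ 3 := (abs_nonneg V).trans hv
            gcongr
            · exact le_max_left _ _
            · exact le_max_right _ _
        _ = (u + v) * (M ^ 3 * H) := by ring
        _ ≤ 139 * (M ^ 3 * H) := by gcongr
        _ = 139 * M ^ 3 * H := by ring
    have h4 : 11 * M ^ 7 ≤ 11 * (139 * M ^ 3 * H) := by
      calc 11 * M ^ 7 = |11 * t ^ 7| := by rw [abs_mul, abs_pow, htM]; norm_num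
        _ = |g| * |U * N + V * D| := by rw [← ht, abs_mul]
        _ ≤ 11 * (139 * M ^ 3 * H) := by gcongr
    exact le_of_mul_le_mul_left (by linarith : M ^ 3 * M ^ 4 ≤ M ^ 3 * (139 * H)) (by positivity)
  have key : M ^ 4 ≤ 139 * H := by
    rcases max_choice |p| |q| with hc | hc
    · exact hbd U₁ V₁ p 41 23 b1 b2 (by norm_num) h1 (by rw [hM, hc])
    · exact hbd U₂ V₂ q 96 43 b3 b4 (by norm_num) h2 (by rw [hM, hc])
  have e5 : ((ht r : ℕ) : ℤ) = M := by simp [ht, hM, hp, hq, Nat.cast_max]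
  have e6 : ((ht x : ℕ) : ℤ) = H := by simp [ht, hH, hN, hD, Nat.cast_max]
  exact_mod_cast (show ((ht r : ℕ) : ℤ) ^ 4 ≤ 139 * (ht x : ℕ) by rw [e5, e6]; exact key)

/-- The few abscissae of height at most `5`. -/
theorem abscissa_small {x : ℚ} (h : IsAbscissa x) (hx : ht x ≤ 5) : x = 0 ∨ x = 1 := by
  obtain ⟨m, n, e, he, hme, hnum, hden, heq⟩ := exists_integral_coords h
  have hm : m.natAbs ≤ 5 := hnum ▸ (le_max_left _ _).trans hx
  have hd : x.den ≤ 5 := (le_max_right _ _).trans hx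
  have he2 : e ≤ 2 := by nlinarith [(by omega : (x.den : ℤ) ≤ 5)]
  have hsq : (2 * n + e ^ 3) ^ 2 = 4 * m ^ 3 - 4 * m ^ 2 * e ^ 2 + e ^ 6 := by
    linear_combination 4 * heq
  obtain ⟨w, hw⟩ : ∃ w : ℕ, (2 * n + e ^ 3).natAbs = w := ⟨_, rfl⟩
  rw [← Int.natAbs_sq, hw] at hsq
  have hm1 : -5 ≤ m := by omega
  have hm2 : m ≤ 5 := by omega
  have hval : 4 * m ^ 3 - 4 * m ^ 2 * e ^ 2 + e ^ 6 < 729 := by
    interval_cases m <;> interval_cases e <;> norm_num
  have hwlt : w < 27 := by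
    have : (w : ℤ) ^ 2 < 27 ^ 2 := by rw [hsq]; linarith
    exact_mod_cast abs_lt_of_sq_lt_sq' this (by norm_num) |>.2
  have hcases : ∀ m' ∈ Finset.Icc (-5 : ℤ) 5, ∀ e' ∈ Finset.Icc (1 : ℤ) 2, ∀ w' < 27,
      Int.gcd m' e' = 1 → ((w' : ℕ) : ℤ) ^ 2 = 4 * m' ^ 3 - 4 * m' ^ 2 * e' ^ 2 + e' ^ 6 →
      (m' = 0 ∨ m' = 1) ∧ e' = 1 := by decide +kernel
  obtain ⟨hm', rfl⟩ := hcases m (Finset.mem_Icc.mpr ⟨hm1, hm2⟩) e
    (Finset.mem_Icc.mpr (by omega)) w hwlt (Int.isCoprime_iff_gcd_eq_one.mp hme) hsq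
  have hd1 : x.den = 1 := by exact_mod_cast (by simpa using hden : (x.den : ℤ) = 1)
  have hxm : x = (m : ℚ) := by
    rw [← hnum]; exact (Rat.den_eq_one_iff x).mp hd1 |>.symm
  rcases hm' with rfl | rfl <;> simp [hxm]

/-- Infinite descent. -/
theorem abscissa_eq {x : ℚ} (h : IsAbscissa x) : x = 0 ∨ x = 1 := by
  induction hn : ht x using Nat.strong_induction_on generalizing x with
  | _ k ih =>
    subst hn
    obtain ⟨r, hr, hrx⟩ := exists_halving h
    have hr' : r = 0 ∨ r = 1 := by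
      by_cases hlt : ht r < ht x
      · exact ih _ hlt hr rfl
      · apply abscissa_small hr
        have h4 := (height_halving hrx).trans (Nat.mul_le_mul_left 139 (not_lt.mp hlt))
        by_contra h5
        have h6 : 6 ≤ ht r := by omega
        have : 216 * ht r ≤ ht r ^ 4 := by
          calc 216 * ht r = 6 ^ 3 * ht r := by norm_num
            _ ≤ ht r ^ 3 * ht r := by gcongr
            _ = ht r ^ 4 := by ring
        omega
    rcases hr' with rfl | rfl
    · right; linear_combination hrx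
    · left; linear_combination hrx

/-- The rational points of `y^2 + y = x^3 - x^2` are the four obvious ones. -/
theorem rational_points {x y : ℚ} (h : y ^ 2 + y = x ^ 3 - x ^ 2) :
    (x = 0 ∨ x = 1) ∧ (y = 0 ∨ y = -1) := by
  have hx := abscissa_eq ⟨y, h⟩
  refine ⟨hx, ?_⟩
  have : y * (y + 1) = 0 := by rcases hx with rfl | rfl <;> linear_combination h
  rcases mul_eq_zero.mp this with h0 | h0
  · exact Or.inl h0
  · exact Or.inr (by linarith)

end Fermat.Agent.Descent11
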